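/-
S45 glue (helper46): level lowering to level 2 for the Frey curve, given
  (S06) the mod-p representation is modular of some conductor level N,
  (S05) it is unramified at every prime q with q ≠ 2, q ≠ p,
  (S43) an odd prime q ≠ p at which it is unramified can be removed from a conductor level,
  (S44) p can be removed from a conductor level,
  (S08) there is no nonzero weight-2 cusp form of level Gamma0(1).
All inputs are hypotheses here, so this file has no dependency on unfinished work.
-/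
import Mathlib
import Fermat.Prelude.Def_FLTPrelim_FreyPackage
import Fermat.Prelude.Def_FLTPrelim_GaloisRep
import Fermat.Prelude.Def_FLTPrelim_Modularity
import Fermat.Prelude.Def_FLTPrelim_ModularRep
import Fermat.Prelude.Def_FLTPrelim_Ramification
import Fermat.Prelude.Def_FreyPackage_IsConductorLevel

set_option autoImplicit false
open WeierstrassCurve WeierstrassCurve.Affine WeierstrassCurve.Affine.Point
open CuspForm ModularFormClass UpperHalfPlane

namespace Fermat.Agent.S45

/-- A squarefree positive natural number all of whose prime factors equal `2` divides `2`. -/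
theorem dvd_two_of_squarefree_of_forall_prime_eq_two {N : ℕ} (hsq : Squarefree N)
    (h : ∀ q : ℕ, q.Prime → q ∣ N → q = 2) : N ∣ 2 := by
  have hN0 : N ≠ 0 := hsq.ne_zero
  rw [← Nat.factorization_le_iff_dvd hN0 (by norm_num)]
  intro q
  by_cases hq : q.Prime
  · by_cases hqN : q ∣ N
    · have hq2 : q = 2 := h q hq hqN
      subst hq2
      have h1 : N.factorization 2 ≤ 1 := hsq.natFactorization_le_one 2
      have h2 : (2 : ℕ).factorization 2 = 1 := by
        simpa using Nat.Prime.factorization_self Nat.prime_two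
      omega
    · have : N.factorization q = 0 := Nat.factorization_eq_zero_of_not_dvd hqN
      omega
  · have : N.factorization q = 0 := Nat.factorization_eq_zero_of_not_prime N hq
    omega

/-- Iterated level lowering: from any conductor level down to a level dividing `2`. -/
theorem exists_modularRepOfLevel_dvd_two (P : FreyPackage)
    (h05 : ∀ q : ℕ, q.Prime → q ≠ 2 → q ≠ P.p → P.GaloisRepUnramifiedAt q)
    (h43 : ∀ N q : ℕ, P.IsConductorLevel N → q.Prime → q ≠ 2 → q ≠ P.p → q ∣ N →
      P.ModularRepOfLevel N → P.GaloisRepUnramifiedAt q →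
      ∃ M : ℕ, M ∣ N ∧ ¬ q ∣ M ∧ P.ModularRepOfLevel M)
    (h44 : ∀ N : ℕ, P.IsConductorLevel N → P.p ∣ N → P.ModularRepOfLevel N →
      ∃ M : ℕ, M ∣ N ∧ ¬ P.p ∣ M ∧ P.ModularRepOfLevel M) :
    ∀ N : ℕ, P.IsConductorLevel N → P.ModularRepOfLevel N →
      ∃ M : ℕ, M ∣ 2 ∧ P.ModularRepOfLevel M := by
  intro N
  induction N using Nat.strong_induction_on with
  | _ N ih =>
    intro hcond hmod
    by_cases hall : ∀ q : ℕ, q.Prime → q ∣ N → q = 2
    · exact ⟨N, dvd_two_of_squarefree_of_forall_prime_eq_two hcond.squarefree hall, hmod⟩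
    · simp only [not_forall] at hall
      obtain ⟨q, hq, hqN, hq2⟩ := hall
      have key : ∃ M : ℕ, M ∣ N ∧ ¬ q ∣ M ∧ P.ModularRepOfLevel M := by
        by_cases hqp : q = P.p
        · subst hqp
          exact h44 N hcond hqN hmod
        · exact h43 N q hcond hq hq2 hqp hqN hmod (h05 q hq hq2 hqp)
      obtain ⟨M, hMN, hqM, hMmod⟩ := key
      have hMpos : 0 < M := Nat.pos_of_dvd_of_pos hMN hcond.pos
      have hMle : M ≤ N := Nat.le_of_dvd hcond.pos hMN
      have hMne : M ≠ N := fun h => hqM (h ▸ hqN)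
      exact ih M (lt_of_le_of_ne hMle hMne) (hcond.of_dvd hMN hMpos) hMmod

/-- The glue for S45: a nonzero weight-2 cusp form of level `Gamma0(2)` from the level-lowering
inputs. -/
theorem exists_cuspForm_Gamma0_two_ne_zero (P : FreyPackage)
    (h06 : ∃ N : ℕ, P.IsConductorLevel N ∧ P.ModularRepOfLevel N)
    (h05 : ∀ q : ℕ, q.Prime → q ≠ 2 → q ≠ P.p → P.GaloisRepUnramifiedAt q)
    (h43 : ∀ N q : ℕ, P.IsConductorLevel N → q.Prime → q ≠ 2 → q ≠ P.p → q ∣ N →
      P.ModularRepOfLevel N → P.GaloisRepUnramifiedAt q →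
      ∃ M : ℕ, M ∣ N ∧ ¬ q ∣ M ∧ P.ModularRepOfLevel M)
    (h44 : ∀ N : ℕ, P.IsConductorLevel N → P.p ∣ N → P.ModularRepOfLevel N →
      ∃ M : ℕ, M ∣ N ∧ ¬ P.p ∣ M ∧ P.ModularRepOfLevel M)
    (h08 : ∀ f : CuspForm (CongruenceSubgroup.Gamma0 1) 2, f = 0) :
    ∃ f : CuspForm (CongruenceSubgroup.Gamma0 2) 2, f ≠ 0 := by
  obtain ⟨N, hcond, hmod⟩ := h06
  obtain ⟨M, hM2, hMmod⟩ := exists_modularRepOfLevel_dvd_two P h05 h43 h44 N hcond hmod
  have hM : M = 1 ∨ M = 2 := (Nat.dvd_prime Nat.prime_two).mp hM2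
  rcases hM with rfl | rfl
  · obtain ⟨f, -, -, hf, -⟩ := hMmod
    exact absurd (h08 f) hf.ne_zero
  · obtain ⟨f, -, -, hf, -⟩ := hMmod
    exact ⟨f, hf.ne_zero⟩

end Fermat.Agent.S45
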