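/-
helper41: conditional glue for S45 (`FreyPackage.level_lowering_to_two`).

Everything here is parametric in the deep inputs (conductor-level modularity of the Frey
representation, unramifiedness away from 2p, and the two level-lowering steps); nothing deep is
claimed.  The file is self-contained (imports only Mathlib and the frozen prelude).
-/
import Mathlib
import Fermat.Prelude.Def_FLTPrelim_FreyPackage
import Fermat.Prelude.Def_FLTPrelim_GaloisRep
import Fermat.Prelude.Def_FLTPrelim_Modularity
import Fermat.Prelude.Def_FLTPrelim_ModularRep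
import Fermat.Prelude.Def_FLTPrelim_Ramification
import Fermat.Prelude.Def_FreyPackage_IsConductorLevel

set_option autoImplicit false
open WeierstrassCurve WeierstrassCurve.Affine WeierstrassCurve.Affine.Point
open CuspForm ModularFormClass UpperHalfPlane
open FreyPackage

namespace Fermat.Agent.S45.H41

/-- The shape of S05: the Frey representation is unramified at every prime `q ≠ 2, p`. -/
def UnramifiedAwayInput (P : FreyPackage) : Prop :=
  ∀ {q : ℕ}, q.Prime → q ≠ 2 → q ≠ P.p → P.GaloisRepUnramifiedAt q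

/-- The shape of S43: an odd prime `q ≠ p` of a conductor level at which the Frey
representation is unramified can be removed from the level. -/
def StripOddPrimeInput (P : FreyPackage) : Prop :=
  ∀ {N q : ℕ}, P.IsConductorLevel N → q.Prime → q ≠ 2 → q ≠ P.p → q ∣ N →
    P.ModularRepOfLevel N → P.GaloisRepUnramifiedAt q →
    ∃ M : ℕ, M ∣ N ∧ ¬ q ∣ M ∧ P.ModularRepOfLevel M

/-- The shape of S44: `p` can be removed from a conductor level. -/
def StripPInput (P : FreyPackage) : Prop :=
  ∀ {N : ℕ}, P.IsConductorLevel N → P.p ∣ N → P.ModularRepOfLevel N →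
    ∃ M : ℕ, M ∣ N ∧ ¬ P.p ∣ M ∧ P.ModularRepOfLevel M

/-- A squarefree positive integer all of whose prime factors are `2` divides `2`. -/
theorem dvd_two_of_squarefree_of_primeFactors {N : ℕ} (hsq : Squarefree N)
    (h : ∀ q : ℕ, q.Prime → q ∣ N → q = 2) : N ∣ 2 := by
  have hN0 : N ≠ 0 := hsq.ne_zero
  have hprod : N = ∏ q ∈ N.primeFactors, q := (Nat.prod_primeFactors_of_squarefree hsq).symm
  have hsub : N.primeFactors ⊆ {2} := by
    intro q hq
    have := Nat.mem_primeFactors.mp hq
    simp [h q this.1 this.2.1]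
  rcases Finset.subset_singleton_iff.mp hsub with h0 | h2
  · rw [hprod, h0]; simp
  · rw [hprod, h2]; simp

/-- Strong induction on the level: strip every odd prime and `p`, ending at a level dividing 2. -/
theorem exists_level_dvd_two (P : FreyPackage)
    (h05 : UnramifiedAwayInput P) (h43 : StripOddPrimeInput P) (h44 : StripPInput P) :
    ∀ N : ℕ, P.IsConductorLevel N → P.ModularRepOfLevel N →
      ∃ M : ℕ, M ∣ 2 ∧ P.ModularRepOfLevel M := by
  intro N
  induction N using Nat.strong_induction_on with
  | _ N ih =>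
    intro hcond hmod
    by_cases hall : ∀ q : ℕ, q.Prime → q ∣ N → q = 2
    · exact ⟨N, dvd_two_of_squarefree_of_primeFactors hcond.squarefree hall, hmod⟩
    · simp only [not_forall] at hall
      obtain ⟨q, hq, hqN, hq2⟩ := hall
      have key : ∃ M : ℕ, M ∣ N ∧ ¬ q ∣ M ∧ P.ModularRepOfLevel M := by
        by_cases hqp : q = P.p
        · subst hqp
          exact h44 hcond hqN hmod
        · exact h43 hcond hq hq2 hqp hqN hmod (h05 hq hq2 hqp)
      obtain ⟨M, hMN, hqM, hMmod⟩ := key
      have hMpos : 0 < M := Nat.pos_of_dvd_of_pos hMN hcond.pos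
      have hMlt : M < N := by
        rcases Nat.lt_or_ge M N with h | h
        · exact h
        · exfalso
          have : M = N := Nat.le_antisymm (Nat.le_of_dvd hcond.pos hMN) h
          exact hqM (this ▸ hqN)
      exact ih M hMlt (hcond.of_dvd hMN hMpos) hMmod

/-- Restrict a cusp form to a smaller subgroup. -/
noncomputable def restrictCuspForm {Γ Γ' : Subgroup (GL (Fin 2) ℝ)} {k : ℤ} (h : Γ' ≤ Γ)
    (f : CuspForm Γ k) : CuspForm Γ' k where
  toFun := f
  slash_action_eq' γ hγ := f.slash_action_eq' γ (h hγ)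
  holo' := f.holo'
  zero_at_cusps' hc := f.zero_at_cusps' (hc.mono h)

theorem restrictCuspForm_ne_zero {Γ Γ' : Subgroup (GL (Fin 2) ℝ)} {k : ℤ} (h : Γ' ≤ Γ)
    {f : CuspForm Γ k} (hf : f ≠ 0) : restrictCuspForm h f ≠ 0 := by
  intro h0
  apply hf
  ext z
  have := congrArg (fun g : CuspForm Γ' k => g z) h0
  exact this

theorem Gamma0_two_le_Gamma0_one :
    ((CongruenceSubgroup.Gamma0 2 : Subgroup (Matrix.SpecialLinearGroup (Fin 2) ℤ)) :
        Subgroup (GL (Fin 2) ℝ)) ≤
      ((CongruenceSubgroup.Gamma0 1 : Subgroup (Matrix.SpecialLinearGroup (Fin 2) ℤ)) :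
        Subgroup (GL (Fin 2) ℝ)) := by
  apply Subgroup.map_mono
  intro γ _
  rw [CongruenceSubgroup.Gamma0_mem]
  exact Subsingleton.elim _ _

/-- A representation that is modular of a level dividing `2` yields a nonzero weight-2 cusp
form on `Γ₀(2)`. -/
theorem exists_ne_zero_of_level_dvd_two (P : FreyPackage) {M : ℕ} (hM : M ∣ 2)
    (hmod : P.ModularRepOfLevel M) :
    ∃ f : CuspForm (CongruenceSubgroup.Gamma0 2) 2, f ≠ 0 := by
  obtain ⟨f, -, -, hf, -⟩ := hmod
  have hM12 : M = 1 ∨ M = 2 := by
    have := (Nat.dvd_prime Nat.prime_two).mp hM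
    exact this
  rcases hM12 with rfl | rfl
  · exact ⟨restrictCuspForm Gamma0_two_le_Gamma0_one f,
      restrictCuspForm_ne_zero Gamma0_two_le_Gamma0_one hf.ne_zero⟩
  · exact ⟨f, hf.ne_zero⟩

/-- The glue: S45 from conductor-level modularity + S05 + S43 + S44. -/
theorem level_two_of_inputs (P : FreyPackage)
    (h06 : ∃ N : ℕ, P.IsConductorLevel N ∧ P.ModularRepOfLevel N)
    (h05 : UnramifiedAwayInput P) (h43 : StripOddPrimeInput P) (h44 : StripPInput P) :
    ∃ f : CuspForm (CongruenceSubgroup.Gamma0 2) 2, f ≠ 0 := by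
  obtain ⟨N, hcond, hmod⟩ := h06
  obtain ⟨M, hM, hMmod⟩ := exists_level_dvd_two P h05 h43 h44 N hcond hmod
  exact exists_ne_zero_of_level_dvd_two P hM hMmod

end Fermat.Agent.S45.H41
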