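import Fermat.Agent.L.H19_TorsLevel
import Fermat.Agent.Lib.EllFinite.Main
import Fermat.Agent.Lib.FrobExists
import Fermat.Agent.S04.H59_FreySemistable

/-!
# S45 (helper43): two integral models of the same curve have the same `a_ℓ`

* `apOfModel_eq_of_models` : if `W`, `W'` are integral models of the same curve `E / ℚ` and `ℓ` is
  a good prime for both, then `W.apOfModel ℓ = W'.apOfModel ℓ`.  Proof: for every prime
  `p ≠ ℓ` both are the trace of a Frobenius at `ℓ` on `E[p]` (item 62, `Lib/EllFinite`), and the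
  torsion of the two models is Galois-isomorphic (helper19, `L/H19_TorsLevel`).
* `delta_ne_zero_of_model` : an integral model of a curve with `Δ ≠ 0` has `Δ ≠ 0`.
* Frey curve: `freyInt_bad_dvd_abc` : a prime dividing the discriminant of `P.freyCurveInt`
  divides `a b c`.
-/

set_option autoImplicit false

open WeierstrassCurve

namespace Fermat.Agent.S45.H43

/-- An integer divisible by every prime `p ≠ ℓ` is zero. -/
theorem int_eq_zero_of_forall_prime_dvd (z : ℤ) (ℓ : ℕ)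
    (h : ∀ p : ℕ, p.Prime → p ≠ ℓ → (p : ℤ) ∣ z) : z = 0 := by
  by_contra hz
  obtain ⟨p, hp1, hp2⟩ := Nat.exists_infinite_primes (z.natAbs + ℓ + 1)
  have hpl : p ≠ ℓ := by omega
  have hd := h p hp2 hpl
  have hd' : p ∣ z.natAbs := Int.natCast_dvd.mp hd
  have hpos : 0 < z.natAbs := Int.natAbs_pos.mpr hz
  have := Nat.le_of_dvd hpos hd'
  omega

/-- Two integral models of the same curve over `ℚ` have the same `a_ℓ` at every prime `ℓ` which
is good for both. -/
theorem apOfModel_eq_of_models {E : WeierstrassCurve ℚ} {W W' : WeierstrassCurve ℤ}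
    (hW : W.IsIntegralModelOf E) (hW' : W'.IsIntegralModelOf E) {ℓ : ℕ} (hℓ : ℓ.Prime)
    (hg : W.IsGoodPrimeFor ℓ) (hg' : W'.IsGoodPrimeFor ℓ) :
    W.apOfModel ℓ = W'.apOfModel ℓ := by
  classical
  obtain ⟨C, hC⟩ := hW
  obtain ⟨C', hC'⟩ := hW'
  obtain ⟨A, σ, hA, hσ⟩ := Fermat.Agent.Lib.FrobExists.exists_place_and_frobenius ℓ hℓ
  have key : ∀ p : ℕ, p.Prime → p ≠ ℓ → (p : ℤ) ∣ (W.apOfModel ℓ - W'.apOfModel ℓ) := by
    intro p hp hpl
    have : Fact p.Prime := ⟨hp⟩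
    obtain ⟨-, h1, -⟩ := Fermat.Agent.Lib.EllFinite.stmt_main W p ℓ hℓ hpl hg A hA σ hσ
    obtain ⟨-, h2, -⟩ := Fermat.Agent.Lib.EllFinite.stmt_main W' p ℓ hℓ hpl hg' A hA σ hσ
    have e1 := Fermat.Agent.L.H19.galoisTrace_eq (K := AlgebraicClosure ℚ) hC p σ
    have e2 := Fermat.Agent.L.H19.galoisTrace_eq (K := AlgebraicClosure ℚ) hC' p σ
    have e : ((W.apOfModel ℓ : ℤ) : ZMod p) = ((W'.apOfModel ℓ : ℤ) : ZMod p) := by
      rw [← h1, ← h2, ← e1, ← e2]
    rw [← ZMod.intCast_zmod_eq_zero_iff_dvd]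
    push_cast
    rw [e, sub_self]
  exact sub_eq_zero.mp (int_eq_zero_of_forall_prime_dvd _ ℓ key)

/-- An integral model of a curve with nonzero discriminant has nonzero discriminant. -/
theorem delta_ne_zero_of_model {E : WeierstrassCurve ℚ} {W : WeierstrassCurve ℤ}
    (hW : W.IsIntegralModelOf E) (hE : E.Δ ≠ 0) : W.Δ ≠ 0 := by
  obtain ⟨C, hC⟩ := hW
  intro h0
  have h1 : (W.map (Int.castRingHom ℚ)).Δ = 0 := by
    rw [WeierstrassCurve.map_Δ, h0, map_zero]
  rw [← hC, WeierstrassCurve.variableChange_Δ] at h1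
  rcases mul_eq_zero.mp h1 with h | h
  · exact (pow_ne_zero 12 (Units.ne_zero _)) h
  · exact hE h

/-- The rational Frey curve has nonzero discriminant. -/
theorem freyCurve_Δ_ne_zero (P : FreyPackage) : P.freyCurve.Δ ≠ 0 := by
  rw [← Fermat.Agent.S04.H59.freyCurveInt_map, WeierstrassCurve.map_Δ]
  intro h
  rw [eq_intCast] at h
  exact Fermat.Agent.S04.H59.freyCurveInt_Δ_ne_zero P (by exact_mod_cast h)

/-- A prime dividing the discriminant of the integral Frey curve divides `a b c`. -/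
theorem freyInt_bad_dvd_abc (P : FreyPackage) {q : ℕ} (hq : q.Prime)
    (h : (q : ℤ) ∣ P.freyCurveInt.Δ) : (q : ℤ) ∣ P.a * P.b * P.c := by
  have hqZ : Prime (q : ℤ) := Nat.prime_iff_prime_int.mp hq
  have h1 : (q : ℤ) ∣ (P.a ^ P.p * P.b ^ P.p * P.c ^ P.p) ^ 2 := by
    rw [← Fermat.Agent.S04.H59.freyCurveInt_Δ_mul]
    exact Dvd.dvd.mul_left h _
  have h2 := hqZ.dvd_of_dvd_pow h1
  rcases hqZ.dvd_or_dvd h2 with h3 | h3
  · rcases hqZ.dvd_or_dvd h3 with h4 | h4
    · exact Dvd.dvd.mul_right (Dvd.dvd.mul_right (hqZ.dvd_of_dvd_pow h4) _) _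
    · exact Dvd.dvd.mul_right (Dvd.dvd.mul_left (hqZ.dvd_of_dvd_pow h4) _) _
  · exact Dvd.dvd.mul_left (hqZ.dvd_of_dvd_pow h3) _

end Fermat.Agent.S45.H43
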