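import Fermat.Agent.S58.H99_TateBridge
import Fermat.Agent.S35
import Fermat.Agent.S45.H43_Models
import Fermat.Prelude.Def_FreyPackage_IsConductorLevel

/-!
# S45 (helper43): the top wiring — from `IsModular` (ARBITRARY level) to a conductor level

The frozen S45 gives `hmod : P.freyCurve.IsModular`: an eigenform of an arbitrary level `N` with
the eigenvalues of SOME integral model of the Frey curve.  The glue of S45 (`S45/Glue.lean`)
needs a level which is squarefree and supported on the primes of `a b c`.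

* `Stmt_S36e` : **Carayol for all exponents** (the target of the geometric side, owner helper68):
  the frozen statement S36 with `q ^ 2 ∣ M` instead of `M.factorization q = 2`, without the
  hypotheses `lam ≠ 2`, `hres`, and only for the test primes `lam > q + 1`.
* `s36e_consequence` : a newform with the eigenvalues of a semistable curve has squarefree level.
* `exists_conductorLevel : Stmt_S36e → ∀ P, P.freyCurve.IsModular →
    ∃ N, P.IsConductorLevel N ∧ P.ModularRepOfLevel N`   (the input `h06` of the glue).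

Everything else is landed: S35 (`Fermat.Agent.S35.result`), the Tate module of a semistable curve
(`S58.stmt_TateUnip`), P1/P3 of helper99, newforms (`R.H99.exists_isNewform`).
-/

set_option autoImplicit false

open Polynomial IsLocalRing CuspForm ModularFormClass

namespace Fermat.Agent.S45.H43

open Fermat.Agent.S58 Fermat.Agent.S58.H99 Fermat.Agent.R.H99

/-- **Carayol for all exponents** (`q ^ 2 ∣ M`, test prime `lam > q + 1`). -/
def Stmt_S36e : Prop :=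
  ∀ {M : ℕ} [NeZero M] {g : CuspForm (CongruenceSubgroup.Gamma0 M) 2} (_hg : g.IsNewform)
    (lam : ℕ) [Fact lam.Prime]
    (S : Finset ℕ)
    (O' : Type) [CommRing O'] [IsDomain O'] [IsDiscreteValuationRing O']
    [IsAdicComplete (IsLocalRing.maximalIdeal O') O'] [Finite (IsLocalRing.ResidueField O')]
    [CharZero O'] (_hlamO' : (lam : O') ∈ IsLocalRing.maximalIdeal O')
    (chig : CuspForm.heckeAlgebra M 2 (↑S : Set ℕ) →+* ℂ)
    (_hchig : ∀ (ℓ : ℕ) (hℓ : ℓ.Prime) (hℓM : ¬ ℓ ∣ M) (hℓS : ℓ ∉ (↑S : Set ℕ)),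
      chig (CuspForm.heckeAlgebra.T hℓ hℓM hℓS) = ModularFormClass.qCoeff g ℓ)
    (iota : chig.range →+* O')
    (_hlamS : lam ∈ S) (_hMS : ∀ q : ℕ, q.Prime → q ∣ M → q ∈ S),
    ∃ (O'' : Type) (_ : CommRing O'') (_ : IsDomain O'') (_ : IsDiscreteValuationRing O'')
      (_ : IsAdicComplete (IsLocalRing.maximalIdeal O'') O'')
      (_ : Finite (IsLocalRing.ResidueField O''))
      (_ : CharZero O'') (_ : Algebra O' O'') (_ : Module.Finite O' O'')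
      (_ : IsLocalHom (algebraMap O' O'')),
      Function.Injective (algebraMap O' O'') ∧
      ∃ ρ : GaloisRepAdic O'',
        (∀ (ℓ : ℕ) (hℓ : ℓ.Prime) (hℓM : ¬ ℓ ∣ M) (hℓS : ℓ ∉ (↑S : Set ℕ)),
          ∀ A : ValuationSubring (AlgebraicClosure ℚ), A.LiesOverPrime ℓ →
            ∀ σ : AlgebraicClosure ℚ ≃ₐ[ℚ] AlgebraicClosure ℚ, A.IsFrobeniusAt σ ℓ →
              LinearMap.charpoly (ρ.ρ σ) =
                X ^ 2 - C (algebraMap O' O'' ((iota.comp chig.rangeRestrict)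
                  (CuspForm.heckeAlgebra.T hℓ hℓM hℓS))) * X + C ((ℓ : O''))) ∧
        (∀ q : ℕ, q.Prime → q + 1 < lam → q ^ 2 ∣ M → ¬ ρ.IsUnipotentOnInertiaAt q)

/-- The frozen statement S35, in the form used by the wiring of S58. -/
theorem stmt_S35 : Fermat.Agent.S58.Stmt_S35 :=
  fun hg lam _ S O' _ _ _ _ _ _ hlamO' chig hchig iota hlamS hMS =>
    Fermat.Agent.S35.result hg lam S O' hlamO' chig hchig iota hlamS hMS

/-- P1 of helper99, unconditional. -/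
theorem stmt_AdicUnip : Fermat.Agent.S58.Stmt_AdicUnip :=
  H99.stmt_AdicUnip_of_tate Fermat.Agent.S58.stmt_TateUnip

section Apply

variable {N₀ : ℕ} [NeZero N₀] {f₀ : CuspForm (CongruenceSubgroup.Gamma0 N₀) 2}

/-- Consequence of `Stmt_S36e` for a newform with the eigenvalues of a semistable curve `W`
outside a finite set: its level is squarefree. -/
theorem s36e_consequence (h36 : Stmt_S36e) (hf₀ : f₀.IsNewform)
    (W : WeierstrassCurve ℤ) (hΔ : W.Δ ≠ 0) (hss : W.IsSemistableModel) (T : Finset ℕ)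
    (hfW : ∀ ℓ : ℕ, ℓ.Prime → ℓ ∉ T → ¬ ℓ ∣ N₀ → qCoeff f₀ ℓ = (W.apOfModel ℓ : ℂ)) :
    ∀ q : ℕ, q.Prime → ¬ q ^ 2 ∣ N₀ := by
  classical
  intro q hq hq2
  obtain ⟨p, hp1, hp⟩ := Nat.exists_infinite_primes (q + 2)
  have hpF : Fact p.Prime := ⟨hp⟩
  have hqp : q ≠ p := by omega
  set S : Finset ℕ := insert p (N₀.primeFactors ∪ T) with hS
  have hpS : p ∈ S := Finset.mem_insert_self _ _
  have hMS : ∀ q : ℕ, q.Prime → q ∣ N₀ → q ∈ S := fun q hq hqN =>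
    Finset.mem_insert_of_mem (Finset.mem_union_left _
      (Nat.mem_primeFactors.mpr ⟨hq, hqN, NeZero.ne N₀⟩))
  have hST : ∀ ℓ : ℕ, ℓ ∉ (↑S : Set ℕ) → ℓ ∉ T := fun ℓ hℓS hℓT =>
    hℓS (Finset.mem_coe.mpr (Finset.mem_insert_of_mem (Finset.mem_union_right _ hℓT)))
  set chig : heckeAlgebra N₀ 2 (↑S : Set ℕ) →+* ℂ := eigenCharC (↑S : Set ℕ) hf₀.1 with hchig_def
  have hchig : ∀ (ℓ : ℕ) (hℓ : ℓ.Prime) (hℓM : ¬ ℓ ∣ N₀) (hℓS : ℓ ∉ (↑S : Set ℕ)),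
      chig (heckeAlgebra.T hℓ hℓM hℓS) = qCoeff f₀ ℓ :=
    fun ℓ hℓ hℓM hℓS => eigenCharC_T _ hf₀.1 hℓ hℓM hℓS
  obtain ⟨P, O', i1, i2, i3, i4, i5, i6, iota, -, -, -, -, hpO'⟩ :=
    exists_padic_embedding chig hp
  have hcoef : ∀ (ℓ : ℕ) (hℓ : ℓ.Prime) (hℓM : ¬ ℓ ∣ N₀) (hℓS : ℓ ∉ (↑S : Set ℕ)),
      (iota.comp chig.rangeRestrict) (heckeAlgebra.T hℓ hℓM hℓS) =
        ((W.apOfModel ℓ : ℤ) : O') := by
    intro ℓ hℓ hℓM hℓS
    rw [RingHom.comp_apply, rangeRestrict_eq_intCast chig _ (W.apOfModel ℓ)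
      (by rw [hchig, hfW ℓ hℓ (hST ℓ hℓS) hℓM]), map_intCast]
  obtain ⟨O'', j1, j2, j3, j4, j5, j6, j7, j8, j9, -, ρ, hfrob, hnu⟩ :=
    h36 hf₀ p S O' hpO' chig hchig iota hpS hMS
  have hpO'' : (p : O'') ∈ maximalIdeal O'' := by
    have := map_mem_maximalIdeal (algebraMap O' O'') hpO'
    rwa [map_natCast] at this
  have hHas : HasFrobOf W ρ S := by
    intro ℓ hℓ hℓS Q hQ σ hσ
    have hℓN₀ : ¬ ℓ ∣ N₀ := fun h => hℓS (hMS ℓ hℓ h)
    have hℓS' : ℓ ∉ (↑S : Set ℕ) := by simpa using hℓS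
    rw [hfrob ℓ hℓ hℓN₀ hℓS' Q hQ σ hσ, hcoef ℓ hℓ hℓN₀ hℓS', map_intCast]
  exact hnu q hq (by omega) hq2 (stmt_AdicUnip p W hΔ hss O'' hpO'' ρ S hHas q hq hqp)

end Apply

/-- **The level of the newform behind a modular semistable curve.**  If an eigenform of level
`N ≠ 0` has the eigenvalues of the semistable model `W` outside a finite set `T₀`, then there is
a newform `f₀` of squarefree level `N₀ ∣ N`, all of whose prime divisors are bad for `W`, with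
`a_ℓ(f₀) = a_ℓ(W)` at EVERY good prime `ℓ` of `W`. -/
theorem exists_newform_squarefree (h36 : Stmt_S36e)
    (W : WeierstrassCurve ℤ) (hΔ : W.Δ ≠ 0) (hss : W.IsSemistableModel)
    {N : ℕ} (hN0 : N ≠ 0) {f : CuspForm (CongruenceSubgroup.Gamma0 N) 2}
    (hf : f.IsNormalizedEigenform) (T₀ : Finset ℕ)
    (hfW : ∀ ℓ : ℕ, ℓ.Prime → ℓ ∉ T₀ → ¬ ℓ ∣ N → qCoeff f ℓ = (W.apOfModel ℓ : ℂ)) :
    ∃ (N₀ : ℕ) (f₀ : CuspForm (CongruenceSubgroup.Gamma0 N₀) 2), N₀ ≠ 0 ∧ N₀ ∣ N ∧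
      f₀.IsNormalizedEigenform ∧ Squarefree N₀ ∧
      (∀ q : ℕ, q.Prime → q ∣ N₀ → (q : ℤ) ∣ W.Δ) ∧
      ∀ ℓ : ℕ, ℓ.Prime → W.IsGoodPrimeFor ℓ → qCoeff f₀ ℓ = (W.apOfModel ℓ : ℂ) := by
  classical
  have : NeZero N := ⟨hN0⟩
  obtain ⟨N₀, hN₀N, f₀, hf₀, hf₀f⟩ := exists_isNewform hf
  have hN₀0 : N₀ ≠ 0 := fun h => hN0 (by rw [h] at hN₀N; exact Nat.eq_zero_of_zero_dvd hN₀N)
  have : NeZero N₀ := ⟨hN₀0⟩
  set T : Finset ℕ := N.primeFactors ∪ T₀ with hT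
  have hf₀W : ∀ ℓ : ℕ, ℓ.Prime → ℓ ∉ T → ¬ ℓ ∣ N₀ → qCoeff f₀ ℓ = (W.apOfModel ℓ : ℂ) := by
    intro ℓ hℓ hℓT _
    have hℓN : ¬ ℓ ∣ N := fun hdvd =>
      hℓT (Finset.mem_union_left _ (Nat.mem_primeFactors.mpr ⟨hℓ, hdvd, hN0⟩))
    have hℓT₀ : ℓ ∉ T₀ := fun h => hℓT (Finset.mem_union_right _ h)
    rw [hf₀f ℓ hℓ hℓN]
    exact hfW ℓ hℓ hℓT₀ hℓN
  -- (A2) the level `N₀` is squarefree
  have hsq : ∀ q : ℕ, q.Prime → ¬ q ^ 2 ∣ N₀ :=
    s36e_consequence h36 hf₀ W hΔ hss T hf₀W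
  -- (A1) every prime divisor of `N₀` is bad
  have hbadN₀ : ∀ q : ℕ, q.Prime → q ∣ N₀ → (q : ℤ) ∣ W.Δ := by
    intro q hq hqN₀
    by_contra hgood
    obtain ⟨lam, hlam1, hlam2⟩ := Nat.exists_infinite_primes (2 * q + 3)
    have : Fact lam.Prime := ⟨hlam2⟩
    have : Fact q.Prime := ⟨hq⟩
    have hqlam : q ≠ lam := by omega
    obtain ⟨hlo, hhi⟩ := apOfModel_bounds W q
    rcases (s35_consequences stmt_S35 hf₀ W hΔ T hf₀W lam).2 q hq hqlam hqN₀ (hsq q hq) hgood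
      with h | h
    · have h1 : (0 : ℤ) < (q : ℤ) + 1 - W.apOfModel q := by omega
      have h2 := Int.le_of_dvd h1 h
      omega
    · have h' : (lam : ℤ) ∣ ((q : ℤ) + 1 + W.apOfModel q) := by
        have := (dvd_neg (α := ℤ)).mpr h
        have e : -(-((q : ℤ) + 1) - W.apOfModel q) = (q : ℤ) + 1 + W.apOfModel q := by ring
        rwa [e] at this
      have h1 : (0 : ℤ) < (q : ℤ) + 1 + W.apOfModel q := by omega
      have h2 := Int.le_of_dvd h1 h'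
      omega
  -- the eigenvalues at ALL good primes
  have hall : ∀ ℓ : ℕ, ℓ.Prime → W.IsGoodPrimeFor ℓ → qCoeff f₀ ℓ = (W.apOfModel ℓ : ℂ) := by
    intro ℓ hℓ hgood
    have hℓN₀ : ¬ ℓ ∣ N₀ := fun h => hgood (hbadN₀ ℓ hℓ h)
    have hint : IsIntegral ℤ (qCoeff f₀ ℓ - (W.apOfModel ℓ : ℂ)) := by
      have h1 : IsIntegral ℤ (qCoeff f₀ ℓ) := by
        have hℓS : ℓ ∉ (∅ : Set ℕ) := Set.notMem_empty ℓ
        have := isIntegral_apply (eigenCharC (∅ : Set ℕ) hf₀.1) (heckeAlgebra.T hℓ hℓN₀ hℓS)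
        rwa [eigenCharC_T] at this
      have h2 : IsIntegral ℤ ((W.apOfModel ℓ : ℤ) : ℂ) := isIntegral_algebraMap
      exact h1.sub h2
    have h0 := eq_zero_of_forall_prime_mem _ hint ℓ (fun lam hlam hB => by
      have : Fact lam.Prime := ⟨hlam⟩
      exact (s35_consequences stmt_S35 hf₀ W hΔ T hf₀W lam).1 ℓ hℓ hℓN₀ (by omega) hgood)
    exact sub_eq_zero.mp h0
  refine ⟨N₀, f₀, hN₀0, hN₀N, hf₀.1, ?_, hbadN₀, hall⟩
  rw [Nat.squarefree_iff_prime_squarefree]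
  intro q hq hqq
  exact hsq q hq (by rwa [pow_two])

/-- **The input `h06` of the S45 glue**: from modularity of the Frey curve (at an arbitrary
level) to modularity of the Frey representation at a conductor level. -/
theorem exists_conductorLevel (h36 : Stmt_S36e) (P : FreyPackage)
    (hmod : P.freyCurve.IsModular) :
    ∃ N : ℕ, P.IsConductorLevel N ∧ P.ModularRepOfLevel N := by
  classical
  obtain ⟨W, hW, N, hNpos, f, hf, hfW⟩ := hmod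
  set W₀ : WeierstrassCurve ℤ := P.freyCurveInt with hW₀
  have hW₀m : W₀.IsIntegralModelOf P.freyCurve :=
    Fermat.Agent.S04.H59.freyCurveInt_isIntegralModelOf P
  have hΔ₀ : W₀.Δ ≠ 0 := Fermat.Agent.S04.H59.freyCurveInt_Δ_ne_zero P
  have hss₀ : W₀.IsSemistableModel := Fermat.Agent.S04.H59.freyCurveInt_isSemistableModel P
  have hΔ : W.Δ ≠ 0 := delta_ne_zero_of_model hW (freyCurve_Δ_ne_zero P)
  -- the exceptional set: the bad primes of the two models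
  set T₀ : Finset ℕ := W.Δ.natAbs.primeFactors ∪ W₀.Δ.natAbs.primeFactors with hT₀
  have hgoodW : ∀ ℓ : ℕ, ℓ.Prime → ℓ ∉ T₀ → W.IsGoodPrimeFor ℓ := by
    intro ℓ hℓ hℓT hdvd
    exact hℓT (Finset.mem_union_left _ (Nat.mem_primeFactors.mpr
      ⟨hℓ, Int.natCast_dvd.mp hdvd, Int.natAbs_ne_zero.mpr hΔ⟩))
  have hgoodW₀ : ∀ ℓ : ℕ, ℓ.Prime → ℓ ∉ T₀ → W₀.IsGoodPrimeFor ℓ := by
    intro ℓ hℓ hℓT hdvd
    exact hℓT (Finset.mem_union_right _ (Nat.mem_primeFactors.mpr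
      ⟨hℓ, Int.natCast_dvd.mp hdvd, Int.natAbs_ne_zero.mpr hΔ₀⟩))
  have hfW₀ : ∀ ℓ : ℕ, ℓ.Prime → ℓ ∉ T₀ → ¬ ℓ ∣ N → qCoeff f ℓ = (W₀.apOfModel ℓ : ℂ) := by
    intro ℓ hℓ hℓT hℓN
    rw [hfW ℓ hℓ (hgoodW ℓ hℓ hℓT) hℓN,
      apOfModel_eq_of_models hW hW₀m hℓ (hgoodW ℓ hℓ hℓT) (hgoodW₀ ℓ hℓ hℓT)]
  obtain ⟨N₀, f₀, hN₀0, -, hf₀, hsq, hbad, hall⟩ :=
    exists_newform_squarefree h36 W₀ hΔ₀ hss₀ hNpos.ne' hf T₀ hfW₀
  refine ⟨N₀, ⟨Nat.pos_of_ne_zero hN₀0, hsq, fun q hq hqN₀ =>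
    freyInt_bad_dvd_abc P hq (hbad q hq hqN₀)⟩, ?_⟩
  obtain ⟨𝔪, h𝔪, hp𝔪⟩ := FLTPrelim.exists_maximalIdeal_natCast_prime_mem P.pp
  refine ⟨f₀, W₀, 𝔪, hf₀, hW₀m, h𝔪, hp𝔪, fun ℓ hℓ hgood _ _ => ?_⟩
  refine ⟨((W₀.apOfModel ℓ : ℤ) : integralClosure ℤ ℂ), ?_, ?_⟩
  · rw [hall ℓ hℓ hgood]
    simp
  · rw [sub_self]
    exact 𝔪.zero_mem

end Fermat.Agent.S45.H43
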