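import Fermat.Agent.GTor.H81_TXFinal
import Fermat.Agent.S30.H29_Assemble
import Fermat.Agent.Lib.FrobDensity.Main
import Fermat.Agent.S45.H43_Top
import Fermat.Agent.S45.NUE.Final
import Fermat.Agent.S36.NU.H81_NUFinal

/-!
# S45 (helper43): the chain from the torsion-level statements (NU) to `Stmt_S36e`

* `S45.NUE.Stmt_TorsNUE M q p` (helper68) : the torsion-level statement (NU) at level `M * q`
  with `q ^ 2 ∣ M` (exponent `e ≥ 3`), test prime `p > q + 1`.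
* `Stmt_TatePieceNUall` : a Tate piece of a newform of level `M` without inertia invariants at
  EVERY prime `q` with `q ^ 2 ∣ M`, `q + 1 < lam`.
* `tatePieceNUall_of` : from `S35.H89.Stmt_TorsNU` (exponent 2, S36) and `S45.NUE.Stmt_TorsNUE`
  (exponent `≥ 3`) at all levels.
* `s36e_of : Stmt_AssembleS → Stmt_TatePieceNUall → Stmt_S36e`.
* `s36e_final : (∀ M q p, Stmt_TorsNU M q p) → (∀ M q p, NUE.Stmt_TorsNUE M q p) → Stmt_S36e`;
* `s36e_of_cores : S36.NU.H81.Stmt_NUCoreTame → NUE.Stmt_NUCoreETame → Stmt_S36e`.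

Copies of `GTor/H81_TX.lean` (`nu_clause`, `tatePieceNU_of`) and `S35/H89_Final.lean` (`s36_of`),
which never use `¬ q ^ 2 ∣ M`.
-/

set_option autoImplicit false
set_option linter.unusedSectionVars false

noncomputable section

open Polynomial
open CuspForm CuspForm.IsNewform

namespace Fermat.Agent.S45.H43

open AlgebraicCurve ModularCurve Fermat.Agent.GTor Fermat.Agent.GTor.H58T1
open Fermat.Agent.Betti.H76 Fermat.Agent.S35.H89 Fermat.Agent.GTor.H81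
open Fermat.Agent.S30 Fermat.Agent.S35

/-- **Interface: a Tate piece without inertia invariants at all primes `q` with `q² ∣ M`.** -/
def Stmt_TatePieceNUall : Prop :=
  ∀ {M : ℕ} [NeZero M] {g : CuspForm (CongruenceSubgroup.Gamma0 M) 2} (_hg : g.IsNewform)
    (lam : ℕ) [Fact lam.Prime]
    (S : Finset ℕ)
    (O' : Type) [CommRing O'] [IsDomain O'] [IsDiscreteValuationRing O']
    [IsAdicComplete (IsLocalRing.maximalIdeal O') O'] [Finite (IsLocalRing.ResidueField O')]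
    [CharZero O'] (_hlamO' : (lam : O') ∈ IsLocalRing.maximalIdeal O')
    (chig : CuspForm.heckeAlgebra M 2 (↑S : Set ℕ) →+* ℂ)
    (_hchig : ∀ (ℓ : ℕ) (hℓ : ℓ.Prime) (hℓM : ¬ ℓ ∣ M) (hℓS : ℓ ∉ (↑S : Set ℕ)),
      chig (CuspForm.heckeAlgebra.T hℓ hℓM hℓS) = ModularFormClass.qCoeff g ℓ)
    (iota : chig.range →+* O')
    (_hlamS : lam ∈ S) (_hMS : ∀ q : ℕ, q.Prime → q ∣ M → q ∈ S),
    ∃ (r : ℕ) (ρ : Fermat.Agent.S30.GQ →* Matrix (Fin r) (Fin r) O'), 0 < r ∧ MatAdicCont ρ ∧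
      (∀ (ℓ : ℕ) (hℓ : ℓ.Prime) (hℓM : ¬ ℓ ∣ M) (hℓS : ℓ ∉ (↑S : Set ℕ)),
        ∀ A : ValuationSubring (AlgebraicClosure ℚ), A.LiesOverPrime ℓ →
          ∀ σ : Fermat.Agent.S30.GQ, A.IsFrobeniusAt σ ℓ →
            ρ σ * ρ σ - (iota.comp chig.rangeRestrict) (CuspForm.heckeAlgebra.T hℓ hℓM hℓS) • ρ σ
              + (ℓ : O') • (1 : Matrix _ _ O') = 0) ∧
      (∀ q : ℕ, q.Prime → q + 1 < lam → q ^ 2 ∣ M →
        ∃ P : ValuationSubring (AlgebraicClosure ℚ), P.LiesOverPrime q ∧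
          ∀ v : Fin r → O', (∀ σ ∈ P.inertiaSubgroupIn ℚ, (ρ σ).mulVec v = v) → v = 0)

section Clauses

variable {M q p : ℕ} [NeZero M] [NeZero q] [Fact p.Prime]

/-- **the Carayol clause at exponent `≥ 3`** at level `M * q`, `q ^ 2 ∣ M`. -/
theorem nu_clauseE (hNU : Fermat.Agent.S45.NUE.Stmt_TorsNUE M q p) (hY : Stmt_Y1 M q)
    (hS30 : Fermat.Agent.R.Stmt_S30)
    {g : CuspForm (CongruenceSubgroup.Gamma0 (M * q)) 2} (hg : g.IsNewform) (S : Finset ℕ)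
    (hS : ∀ l : ℕ, l.Prime → l ∣ M * q → l ∈ S)
    (O' : Type) [CommRing O'] [IsDomain O'] [IsDiscreteValuationRing O']
    [IsAdicComplete (IsLocalRing.maximalIdeal O') O'] [CharZero O']
    (hpO' : (p : O') ∈ IsLocalRing.maximalIdeal O')
    (chig : CuspForm.heckeAlgebra (M * q) 2 (↑S : Set ℕ) →+* ℂ)
    (hchig : ∀ (ℓ : ℕ) (hℓ : ℓ.Prime) (hℓM : ¬ ℓ ∣ M * q) (hℓS : ℓ ∉ (↑S : Set ℕ)),
      chig (CuspForm.heckeAlgebra.T hℓ hℓM hℓS) = ModularFormClass.qCoeff g ℓ)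
    (iota : chig.range →+* O')
    {C : TateCoords (M * q) p (↑S : Set ℕ)} (L : TateLimit C O' hpO') (Pc : SubPiece L.ρL)
    (hPc : ∀ t, Mc O' C.M t * Pc.P = (iota.comp chig.rangeRestrict) t • Pc.P)
    (hq : q.Prime) (hqp : q + 1 < p) (hq2 : q ^ 2 ∣ M) :
    ∃ P : ValuationSubring (AlgebraicClosure ℚ), P.LiesOverPrime q ∧
      ∀ v : Fin Pc.d → O', (∀ σ ∈ P.inertiaSubgroupIn ℚ, (Pc.rep σ).mulVec v = v) → v = 0 := by
  have hpp : p.Prime := Fact.out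
  obtain ⟨A, hA, c, hc⟩ := hNU hq hq2 hpp hqp
  obtain ⟨w, hw0, hw1⟩ := exists_oldKiller hS30 hq.ne_one hg S chig hchig
  have hS' : ∀ l : ℕ, l.Prime → l ∣ M * q → l ∈ (↑S : Set ℕ) := fun l hl h =>
    Finset.mem_coe.2 (hS l hl h)
  have ha0 := iota_comp_ne_zero chig iota _ hw1
  have hp0 : (p : O') ≠ 0 := Nat.cast_ne_zero.2 hpp.ne_zero
  exact ⟨A, hA, fun v hv => piece_NU L Pc hY hS' hc hw0 _ (hPc _) ha0 hp0 v hv⟩

end Clauses

/-- **T-NU for all exponents**: the Tate piece of a newform has no inertia invariants at any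
prime `q` with `q² ∣ M` (`q + 1 < lam`). -/
theorem tatePieceNUall_of
    (hNU : ∀ (M q p : ℕ) [NeZero M] [NeZero q], Stmt_TorsNU M q p)
    (hNUE : ∀ (M q p : ℕ) [NeZero M] [NeZero q], Fermat.Agent.S45.NUE.Stmt_TorsNUE M q p)
    (hY : ∀ (M q : ℕ) [NeZero M] [NeZero q], Stmt_Y1 M q)
    (hS30 : Fermat.Agent.R.Stmt_S30)
    (hRed : ∀ (N : ℕ) [NeZero N] (p : ℕ), p.Prime → AllRed N p) :
    Stmt_TatePieceNUall := by
  intro M _ g hg lam hlam S O' _ _ _ _ _ _ hlamO' chig hchig iota hlamS hMS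
  have hpp : lam.Prime := hlam.out
  obtain ⟨C⟩ := tateCoords M lam (↑S : Set ℕ) hpp
    (fun q hq hqM => Finset.mem_coe.2 (hMS q hq hqM))
  obtain ⟨L⟩ := exists_tateLimit C O' hlamO'
  obtain ⟨Pc, hPc⟩ := exists_piece_eig L (iota.comp chig.rangeRestrict)
  refine ⟨Pc.d, Pc.rep, Pc.pos, L.cont_piece Pc, ?_, ?_⟩
  · intro ℓ hℓ hℓN hℓS A hA σ hσ
    have hℓp : ℓ ≠ lam := by
      rintro rfl
      exact hℓS (Finset.mem_coe.2 hlamS)
    exact piece_ES L Pc (torsES_of_red hpp (hRed M lam hpp)) hℓ hℓN hℓp hℓS _ (hPc _) A hA σ hσ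
  · intro q hq hqlam h2
    have hM0 : M ≠ 0 := NeZero.ne M
    have hqlam' : q ≠ lam := by omega
    obtain ⟨t, ht⟩ := h2
    have : NeZero q := ⟨hq.ne_zero⟩
    by_cases h3 : q ^ 3 ∣ M
    · -- exponent ≥ 3: `M = M₀ q` with `q² ∣ M₀`
      obtain ⟨s, hs⟩ := h3
      obtain ⟨M₀, hM, hq2M₀⟩ : ∃ M₀, M = M₀ * q ∧ q ^ 2 ∣ M₀ :=
        ⟨q ^ 2 * s, by rw [hs]; ring, Dvd.intro s rfl⟩
      subst hM
      have : NeZero M₀ := ⟨fun h => NeZero.ne (M₀ * q) (by rw [h, zero_mul])⟩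
      exact nu_clauseE (hNUE M₀ q lam) (hY M₀ q) hS30 hg S hMS O' hlamO' chig hchig iota L Pc
        hPc hq hqlam hq2M₀
    · -- exponent 2: `M = M₀ q` with `q ∥ M₀` (S36)
      obtain ⟨M₀, hM, hqM₀, hq2M₀⟩ : ∃ M₀, M = M₀ * q ∧ q ∣ M₀ ∧ ¬ q ^ 2 ∣ M₀ := by
        refine ⟨q * t, by rw [ht]; ring, Dvd.intro t rfl, fun h => h3 ?_⟩
        have h4 : q ∣ t := by
          rw [pow_two] at h
          exact Nat.dvd_of_mul_dvd_mul_left hq.pos h
        obtain ⟨s, rfl⟩ := h4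
        exact ⟨s, by rw [ht]; ring⟩
      subst hM
      have : NeZero M₀ := ⟨fun h => NeZero.ne (M₀ * q) (by rw [h, zero_mul])⟩
      exact nu_clause (hNU M₀ q lam) (hY M₀ q) hS30 hg S hMS O' hlamO' chig hchig iota L Pc
        hPc hq hqlam' hqM₀ hq2M₀

/-- **`Stmt_S36e` from the structural assembly and the Tate piece without inertia invariants.** -/
theorem s36e_of (hS : Stmt_AssembleS) (hT : Stmt_TatePieceNUall) : Stmt_S36e := by
  intro M _ g hg lam _ S O' _ _ _ _ _ _ hlamO' chig hchig iota hlamS hMS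
  obtain ⟨r, ρ, hr, hcont, hES, hNU⟩ := hT hg lam S O' hlamO' chig hchig iota hlamS hMS
  obtain ⟨ε, hε1, hε2, hES', -⟩ :=
    H89.core lam S O' hlamO' (iota.comp chig.rangeRestrict) hlamS hMS r ρ hES
  obtain ⟨O'', i1, i2, i3, i4, i5, i6, i7, i8, i9, hinj, ρ'', hF, -, -, -, hN⟩ :=
    assembleX_of_assembleS hS O' S (H89.aOf S (iota.comp chig.rangeRestrict)) r hr ρ ε
      hcont hε1 hES' hε2
  refine ⟨O'', i1, i2, i3, i4, i5, i6, i7, i8, i9, hinj, ρ'', ?_, ?_⟩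
  · intro ℓ hℓ hℓM hℓS A hA σ hσ
    have hℓS' : ℓ ∉ S := fun h => hℓS (Finset.mem_coe.2 h)
    rw [hF ℓ hℓ hℓS' A hA σ hσ, H89.aOf_eq S _ ℓ hℓ hℓM hℓS]
  · intro q hq hqlam hq2 hU
    obtain ⟨P, hP, hfix⟩ := hNU q hq hqlam hq2
    obtain ⟨σ, hσ, hne⟩ := hN (P.inertiaSubgroupIn ℚ) hfix
    exact hne (hU P hP σ hσ)

/-- **`Stmt_S36e` from the torsion-level statements (NU) at all levels.** -/
theorem s36e_final
    (hNU : ∀ (M q p : ℕ) [NeZero M] [NeZero q], Stmt_TorsNU M q p)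
    (hNUE : ∀ (M q p : ℕ) [NeZero M] [NeZero q], Fermat.Agent.S45.NUE.Stmt_TorsNUE M q p) : Stmt_S36e :=
  s36e_of (Fermat.Agent.S30.H29.assembleS_of_FD Fermat.Agent.Lib.FrobDensity.stmt_FD)
    (tatePieceNUall_of hNU hNUE (fun M q _ _ => Fermat.Agent.S36.H44.stmt_Y1 M q)
      Fermat.Agent.R.H33.stmt_S30 (fun N _ p _ => Fermat.Agent.R.H33.allRed N p))

/-- **`Stmt_S36e` from the two Kummer cores** (S36: exponent 2; S45/NUE: exponent `≥ 3`). -/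
theorem s36e_of_cores (h2 : Fermat.Agent.S36.NU.H81.Stmt_NUCoreTame)
    (hE : Fermat.Agent.S45.NUE.Stmt_NUCoreETame) : Stmt_S36e :=
  s36e_final (fun M q p _ _ => Fermat.Agent.S36.NU.H81.torsNU_final h2 M q p)
    (fun M q p _ _ => Fermat.Agent.S45.NUE.torsNUE_final hE M q p)

end Fermat.Agent.S45.H43
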