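import Fermat.Agent.S45.H43_Chain
import Fermat.Agent.S45.Glue
import Fermat.Agent.S05
import Fermat.Agent.S44
import Fermat.Agent.S08

/-!
# S45 (helper43): the frozen statement from the two Kummer cores and S43

`s45_of : S36.NU.H81.Stmt_NUCoreTame → S45.NUE.Stmt_NUCoreETame → Stmt_S43 → <frozen S45>`

* `S36.NU.H81.Stmt_NUCoreTame` : the target of S36 / NU-B (exponent 2; owner helper10);
* `S45.NUE.Stmt_NUCoreETame` : the target of the geometric side of S45 (exponent `≥ 3`; owner
  helper68);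
* `Stmt_S43` : the frozen type of S43 (row 37; owner helper37).

Landed inputs: S05, S44, S08 (`Fermat.Agent.S05.result`, ...), S35, the glue `S45/Glue.lean`.
-/

set_option autoImplicit false

open WeierstrassCurve WeierstrassCurve.Affine WeierstrassCurve.Affine.Point
open CuspForm ModularFormClass UpperHalfPlane

namespace Fermat.Agent.S45.H43

/-- The frozen type of S43 (Ribet's level lowering for the Frey curve). -/
def Stmt_S43 : Prop :=
  ∀ (P : FreyPackage) {N q : ℕ} (_hcond : P.IsConductorLevel N) (_hq : q.Prime) (_hq2 : q ≠ 2)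
    (_hqp : q ≠ P.p) (_hqN : q ∣ N)
    (_hirr : GaloisRepIsIrreducible (K := AlgebraicClosure ℚ) ℚ P.freyCurve P.p)
    (_hmod : P.ModularRepOfLevel N) (_hunr : P.GaloisRepUnramifiedAt q),
    ∃ M : ℕ, M ∣ N ∧ ¬ q ∣ M ∧ P.ModularRepOfLevel M

/-- **S45 from `Stmt_S36e` and S43.** -/
theorem s45_of_s36e (h36 : Stmt_S36e) (h43 : Stmt_S43) (P : FreyPackage)
    (hmod : P.freyCurve.IsModular)
    (hirr : GaloisRepIsIrreducible (K := AlgebraicClosure ℚ) ℚ P.freyCurve P.p) :
    ∃ f : CuspForm (CongruenceSubgroup.Gamma0 2) 2, f ≠ 0 :=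
  Fermat.Agent.S45.exists_cuspForm_Gamma0_two_ne_zero P (exists_conductorLevel h36 P hmod)
    (fun _ hq hq2 hqp => Fermat.Agent.S05.result P hq hq2 hqp)
    (fun _ _ hcond hq hq2 hqp hqN hmodN hunr => h43 P hcond hq hq2 hqp hqN hirr hmodN hunr)
    (fun _ hcond hpN hmodN => Fermat.Agent.S44.result P hcond hpN hirr hmodN)
    Fermat.Agent.S08.result

/-- **S45 from the two Kummer cores and S43.** -/
theorem s45_of (h2 : Fermat.Agent.S36.NU.H81.Stmt_NUCoreTame)
    (hE : Fermat.Agent.S45.NUE.Stmt_NUCoreETame) (h43 : Stmt_S43) (P : FreyPackage)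
    (hmod : P.freyCurve.IsModular)
    (hirr : GaloisRepIsIrreducible (K := AlgebraicClosure ℚ) ℚ P.freyCurve P.p) :
    ∃ f : CuspForm (CongruenceSubgroup.Gamma0 2) 2, f ≠ 0 :=
  s45_of_s36e (s36e_of_cores h2 hE) h43 P hmod hirr

end Fermat.Agent.S45.H43
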